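import Fermat.Agent.ImW.NoLine
import Fermat.Agent.ImW.Curve
import Fermat.Agent.Cheb.Places

/-!
# The auxiliary prime of the 3-5 switch
-/

set_option autoImplicit false
set_option linter.unusedSectionVars false
set_option linter.style.haveILetI false

noncomputable section

namespace Fermat.Agent.S52I

open Matrix Fermat.Agent.Sel Fermat.Agent.GalRep Fermat.Agent.Places Fermat.Agent.TWG Fermat.Agent.ImW
  WeierstrassCurve

local notation "Ω" => AlgebraicClosure ℚ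

local notation "𝒢" => (AlgebraicClosure ℚ) ≃ₐ[ℚ] (AlgebraicClosure ℚ)

theorem cyc_mul_inv' (n : ℕ) [NeZero n] (σ : 𝒢) : cyc n σ * cyc n σ⁻¹ = 1 := by
  rw [← map_mul, mul_inv_cancel, map_one]

theorem five_eq : ((5 : ℕ) : ZMod 5) = 0 := by decide

theorem neg_one_ne : (-1 : ZMod 5) ≠ 1 := by decide

/-- an element of the inertia group at `3` which inverts the third roots of unity -/
theorem exists_kappa : ∃ A : ValuationSubring Ω, A.LiesOverPrime 3 ∧
    ∃ κ ∈ A.inertiaSubgroupIn ℚ, cyc 3 κ = -1 := by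
  obtain ⟨A, hA⟩ := exists_liesOverPrime (L := Ω) Nat.prime_three
  obtain ⟨κ, hκ, h⟩ := exists_inertia_nonsq (p := 3) (hp := ⟨Nat.prime_three⟩) (Or.inl rfl) hA
  refine ⟨A, hA, κ, hκ, ?_⟩
  revert h
  generalize cyc 3 κ = x
  revert x
  decide

/-- the auxiliary prime -/
theorem exists_prime {W : WeierstrassCurve ℤ} (hss : W.IsSemistableModel) [Fact (Nat.Prime 5)]
    {ρ : 𝒢 →* Matrix (Fin 2) (Fin 2) (ZMod 5)} (h : ResW W 5 ρ) {a b : Ω}
    (hca : complexConjugation a = a) (hcb : complexConjugation b = b)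
    (hker : ∀ σ : 𝒢, ρ σ = 1 → σ a = a ∧ σ b = b) (S : Set ℕ) (hS : S.Finite) :
    ∃ ℓ : ℕ, ℓ.Prime ∧ ℓ ∉ S ∧ ∃ A : ValuationSubring Ω, A.LiesOverPrime ℓ ∧
      ∃ τ : 𝒢, A.IsFrobeniusAt τ ℓ ∧ τ a = a ∧ τ b = b ∧ (ℓ : ZMod 3) = 1 ∧ (ℓ : ZMod 5) = -1 := by
  obtain ⟨A3, hA3, κ, hκ, hκ3⟩ := exists_kappa
  have h1 : ρ (κ ^ 5) = 1 := by
    have h2 := h.unip 3 Nat.prime_three (hss 3 Nat.prime_three) (by norm_num) A3 hA3 κ hκ
    have h3 : ρ κ = 1 + (ρ κ - 1) := by abel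
    have h4 : ∀ N : Matrix (Fin 2) (Fin 2) (ZMod 5), N * N = 0 → (1 + N) ^ 5 = 1 + (5 : ℕ) • N := by
      intro N hN
      have e : ∀ n : ℕ, (1 + N) ^ n = 1 + n • N := by
        intro n
        induction n with
        | zero => simp
        | succ n ih =>
          rw [pow_succ, ih, add_mul, one_mul, smul_mul_assoc, mul_add, mul_one, hN, add_zero,
            succ_nsmul]
          abel
      exact e 5
    rw [map_pow, h3, h4 _ h2]
    have h5 : (5 : ℕ) • (ρ κ - 1) = 0 := by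
      rw [← Nat.cast_smul_eq_nsmul (ZMod 5)]
      have : ((5 : ℕ) : ZMod 5) = 0 := five_eq
      rw [this, zero_smul]
    rw [h5, add_zero]
  obtain ⟨hκa, hκb⟩ := hker _ h1
  set σ : 𝒢 := complexConjugation * κ ^ 5 with hσ
  have hσa : σ a = a := by rw [hσ, AlgEquiv.mul_apply, hκa, hca]
  have hσb : σ b = b := by rw [hσ, AlgEquiv.mul_apply, hκb, hcb]
  have hσ3 : cyc 3 σ = 1 := by
    rw [hσ, map_mul, map_pow, hκ3, cyc_complexConjugation]
    decide
  have hσ5 : cyc 5 σ = -1 := by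
    rw [hσ, map_mul, map_pow, cyc_complexConjugation,
      cyc_inertia (by norm_num) hA3 hκ, one_pow, mul_one]
  -- the open subgroup
  let F : IntermediateField ℚ Ω := IntermediateField.adjoin ℚ {a, b}
  haveI hF : FiniteDimensional ℚ F := by
    haveI : Finite ({a, b} : Set Ω) := (Set.toFinite _).to_subtype
    exact IntermediateField.finiteDimensional_adjoin fun x _ =>
      (Algebra.IsAlgebraic.isAlgebraic (R := ℚ) x).isIntegral
  obtain ⟨L3, hL3, hL3'⟩ := exists_level_cyc 3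
  obtain ⟨L5, hL5, hL5'⟩ := exists_level_cyc 5
  haveI := hL3
  haveI := hL5
  let E : IntermediateField ℚ Ω := F ⊔ (L3 ⊔ L5)
  haveI : FiniteDimensional ℚ E := inferInstance
  have hE : ∀ u ∈ E.fixingSubgroup, u a = a ∧ u b = b ∧ cyc 3 u = 1 ∧ cyc 5 u = 1 := by
    intro u hu
    rw [IntermediateField.mem_fixingSubgroup_iff] at hu
    have hFE : F ≤ E := le_sup_left
    have h3E : L3 ≤ E := le_sup_left.trans le_sup_right
    have h5E : L5 ≤ E := le_sup_right.trans le_sup_right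
    refine ⟨hu a (hFE (IntermediateField.subset_adjoin ℚ _ (by simp))),
      hu b (hFE (IntermediateField.subset_adjoin ℚ _ (by simp))),
      hL3' u fun x hx => hu x (h3E hx), hL5' u fun x hx => hu x (h5E hx)⟩
  obtain ⟨ℓ, hℓ, hℓS, A, hA, τ, hτ, n, m, h2, h3⟩ := Cheb.exists_isFrobeniusAt_pow_mem (L := Ω)
    (S ∪ {3, 5}) (hS.union (Set.toFinite _)) E.fixingSubgroup E.fixingSubgroup_isOpen σ
  have hℓ3 : ℓ ≠ 3 := fun h' => hℓS (by simp [h'])
  have hℓ5 : ℓ ≠ 5 := fun h' => hℓS (by simp [h'])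
  refine ⟨ℓ, hℓ, fun h' => hℓS (Or.inl h'), A, hA, τ, hτ, ?_⟩
  have hpow : ∀ (x : Ω), σ x = x → ∀ m : ℕ, (σ ^ m) x = x := by
    intro x hx m
    induction m with
    | zero => rfl
    | succ m ih => rw [pow_succ, AlgEquiv.mul_apply, hx, ih]
  obtain ⟨ha, hb, hc3, hc5⟩ := hE _ h3
  obtain ⟨-, -, hd3, hd5⟩ := hE _ h2
  have hfix : ∀ x : Ω, σ x = x → (τ⁻¹ * σ ^ m) x = x → τ x = x := by
    intro x hx hx'
    rw [AlgEquiv.mul_apply, hpow x hx] at hx'
    have h5 := congrArg τ hx'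
    rw [← AlgEquiv.mul_apply, mul_inv_cancel] at h5
    exact h5.symm
  refine ⟨hfix a hσa ha, hfix b hσb hb, ?_, ?_⟩
  · rw [← cyc_frobenius (n := 3) ((Nat.coprime_primes hℓ Nat.prime_three).2 hℓ3) hA hτ]
    rw [map_mul, map_pow, hσ3, one_pow, mul_one] at hc3
    have h6 := cyc_mul_inv' 3 τ
    rwa [hc3, mul_one] at h6
  · rw [← cyc_frobenius (n := 5) ((Nat.coprime_primes hℓ Nat.prime_five).2 hℓ5) hA hτ]
    rw [map_mul, map_pow, hσ5] at hc5
    rw [map_mul, map_pow] at hd5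
    have h6 := cyc_mul_inv' 5 τ
    have h7 := cyc_mul_inv' 5 σ
    rw [hσ5] at h7
    rcases Nat.even_or_odd m with he | ho
    · exfalso
      rw [he.neg_one_pow, mul_one] at hc5
      rw [hc5, mul_one] at h6
      rw [h6, one_pow, mul_one] at hd5
      rw [hd5, mul_one] at h7
      exact neg_one_ne h7
    · rw [ho.neg_one_pow, mul_neg, mul_one] at hc5
      have h8 : cyc 5 τ⁻¹ = -1 := by rw [← hc5, neg_neg]
      rw [h8, mul_neg, mul_one] at h6
      rw [← h6, neg_neg]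

end Fermat.Agent.S52I
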