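import Mathlib

/-!
# A nonsquare modulo a prime congruent to `-1` modulo `5`
-/

set_option autoImplicit false
set_option linter.style.haveILetI false

namespace Fermat.Agent.S52I

variable {ℓ : ℕ} [hℓ : Fact ℓ.Prime]

theorem mem_range_of_pow_eq {k : Type*} [Field k] [CharP k ℓ] {x : k} (h : x ^ ℓ = x) :
    ∃ n : ZMod ℓ, ZMod.castHom (dvd_refl ℓ) k n = x := by
  have h1 : x ∈ (⊥ : Subfield k) := (Subfield.mem_bot_iff_pow_eq_self (F := k) (p := ℓ)).2 h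
  rw [← ZMod.fieldRange_castHom_eq_bot ℓ] at h1
  exact h1

theorem exists_g (h5 : (ℓ : ZMod 5) = -1) : ∃ g : ZMod ℓ, g ^ 2 + g = 1 ∧ ¬ IsSquare (g - 2) := by
  let k := AlgebraicClosure (ZMod ℓ)
  haveI : CharP k ℓ := inferInstance
  have hℓ5 : ℓ ≠ 5 := by
    rintro rfl
    exact absurd h5 (by decide)
  have hℓ2 : ℓ ≠ 2 := by
    rintro rfl
    exact absurd h5 (by decide)
  haveI : NeZero ((5 : ℕ) : k) := ⟨by
    intro h0
    rw [CharP.cast_eq_zero_iff k ℓ] at h0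
    exact hℓ5 ((Nat.prime_dvd_prime_iff_eq hℓ.out Nat.prime_five).1 h0)⟩
  have h2k : (2 : k) ≠ 0 := by
    intro h0
    have : ((2 : ℕ) : k) = 0 := by exact_mod_cast h0
    rw [CharP.cast_eq_zero_iff k ℓ] at this
    exact hℓ2 ((Nat.prime_dvd_prime_iff_eq hℓ.out Nat.prime_two).1 this)
  obtain ⟨z, hz⟩ : ∃ z : k, IsPrimitiveRoot z 5 :=
    HasEnoughRootsOfUnity.exists_primitiveRoot k 5
  have hz5 := hz.pow_eq_one
  have hz1 : z ≠ 1 := hz.ne_one (by norm_num)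
  have hs : z ^ 4 + z ^ 3 + z ^ 2 + z + 1 = 0 := by
    have : (z - 1) * (z ^ 4 + z ^ 3 + z ^ 2 + z + 1) = 0 := by linear_combination hz5
    exact (mul_eq_zero.1 this).resolve_left (sub_ne_zero.2 hz1)
  have hzℓ : z ^ ℓ = z ^ 4 := by
    have h1 : (ℓ : ZMod 5) = ((4 : ℕ) : ZMod 5) := by rw [h5]; decide
    rw [ZMod.natCast_eq_natCast_iff] at h1
    have h3 : ℓ % 5 = 4 := h1
    have e : ∀ n : ℕ, n % 5 = 4 → z ^ n = z ^ 4 := by
      intro n hn
      rw [← Nat.div_add_mod n 5, hn, pow_add, pow_mul, hz5, one_pow, one_mul]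
    exact e ℓ h3
  -- `g`
  have hg : (z + z ^ 4) ^ ℓ = z + z ^ 4 := by
    rw [add_pow_char, ← pow_mul, mul_comm 4 ℓ, pow_mul, hzℓ]
    linear_combination (z ^ 11 + z ^ 6 + z) * hz5
  obtain ⟨g, hg'⟩ := mem_range_of_pow_eq (ℓ := ℓ) hg
  have hinj : Function.Injective (ZMod.castHom (dvd_refl ℓ) k) := (ZMod.castHom _ k).injective
  refine ⟨g, hinj ?_, ?_⟩
  · rw [map_add, map_pow, map_one, hg']
    linear_combination hs + (z ^ 3 + 2) * hz5
  · rintro ⟨r, hr⟩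
    have h1 : (z ^ 2 - z ^ 3) * (z ^ 2 - z ^ 3) = ZMod.castHom (dvd_refl ℓ) k r *
        ZMod.castHom (dvd_refl ℓ) k r := by
      rw [← map_mul, ← hr, map_sub, hg', map_ofNat]
      linear_combination (z - 2) * hz5
    have h2 : (z ^ 2 - z ^ 3) ^ ℓ = z ^ 2 - z ^ 3 := by
      have hrℓ : (ZMod.castHom (dvd_refl ℓ) k r) ^ ℓ = ZMod.castHom (dvd_refl ℓ) k r := by
        rw [← map_pow, ZMod.pow_card]
      rcases mul_self_eq_mul_self_iff.1 h1 with h | h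
      · rw [h, hrℓ]
      · have hodd : Odd ℓ := hℓ.out.odd_of_ne_two hℓ2
        rw [h, hodd.neg_pow, hrℓ]
    have h3 : (z ^ 2 - z ^ 3) ^ ℓ = -(z ^ 2 - z ^ 3) := by
      rw [sub_pow_char, ← pow_mul, ← pow_mul, mul_comm 2 ℓ, mul_comm 3 ℓ, pow_mul, pow_mul, hzℓ]
      linear_combination (z ^ 3 - z ^ 7 - z ^ 2) * hz5
    rw [h2] at h3
    have h4 : (2 : k) * (z ^ 2 * (1 - z)) = 0 := by linear_combination h3
    rcases mul_eq_zero.1 h4 with h | h
    · exact h2k h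
    · rcases mul_eq_zero.1 h with h | h
      · exact hz.ne_zero (by norm_num) (pow_eq_zero_iff (by norm_num) |>.1 h)
      · exact hz1 (sub_eq_zero.1 h).symm

/-- the data of the twist -/
theorem nonsq_pow {g : ZMod ℓ} (h : ¬ IsSquare (g - 2)) : ¬ IsSquare ((g - 2) ^ 5) := by
  have h0 : g - 2 ≠ 0 := by
    intro h0
    exact h (h0 ▸ ⟨0, by simp⟩)
  rintro ⟨r, hr⟩
  refine h ⟨r / (g - 2) ^ 2, ?_⟩
  field_simp
  linear_combination hr

end Fermat.Agent.S52I
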