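import Fermat.Agent.S52L.Forms

/-!
# The icosahedral forms and the twisting matrix `N`
-/

set_option autoImplicit false

namespace Fermat.Agent.S52I

open Fermat.Agent.S52L

variable {R : Type*} [CommRing R] {g : R}

theorem pA (h : g ^ 2 + g = 1) (a b : R) : (b - g * a) ^ 5 =
    -5*g*a^5 -15*g*a^4*b -20*g*a^3*b^2 -10*g*a^2*b^3 -5*g*a*b^4 +3*a^5 +10*a^4*b +10*a^3*b^2 +10*a^2*b^3 +b^5 := by
  linear_combination (-g^3*a^5 +g^2*a^5 +5*g^2*a^4*b -2*g*a^5 -5*g*a^4*b -10*g*a^3*b^2 +3*a^5 +10*a^4*b +10*a^3*b^2 +10*a^2*b^3) * h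

theorem pB (h : g ^ 2 + g = 1) (a b : R) : (a + g * b) ^ 5 =
    5*g*a^4*b -10*g*a^3*b^2 +20*g*a^2*b^3 -15*g*a*b^4 +5*g*b^5 +a^5 +10*a^3*b^2 -10*a^2*b^3 +10*a*b^4 -3*b^5 := by
  linear_combination (g^3*b^5 +5*g^2*a*b^4 -g^2*b^5 +10*g*a^2*b^3 -5*g*a*b^4 +2*g*b^5 +10*a^3*b^2 -10*a^2*b^3 +10*a*b^4 -3*b^5) * h

theorem pX (h : g ^ 2 + g = 1) (a b : R) : ((b - g * a) ^ 5) ^ 2 =
    -55*g*a^10 -340*g*a^9*b -945*g*a^8*b^2 -1560*g*a^7*b^3 -1680*g*a^6*b^4 -1260*g*a^5*b^5 -630*g*a^4*b^6 -240*g*a^3*b^7 -45*g*a^2*b^8 -10*g*a*b^9 +34*a^10 +210*a^9*b +585*a^8*b^2 +960*a^7*b^3 +1050*a^6*b^4 +756*a^5*b^5 +420*a^4*b^6 +120*a^3*b^7 +45*a^2*b^8 +b^10 := by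
  rw [pA h]
  linear_combination (25*a^10 +150*a^9*b +425*a^8*b^2 +700*a^7*b^3 +750*a^6*b^4 +550*a^5*b^5 +300*a^4*b^6 +100*a^3*b^7 +25*a^2*b^8) * h

theorem pY (h : g ^ 2 + g = 1) (a b : R) : (b - g * a) ^ 5 * (a + g * b) ^ 5 =
    -5*g*a^10 +25*g*a^9*b -25*g*a^8*b^2 -50*g*a^7*b^3 +75*g*a^6*b^4 +55*g*a^5*b^5 -75*g*a^4*b^6 -50*g*a^3*b^7 +25*g*a^2*b^8 +25*g*a*b^9 +5*g*b^10 +3*a^10 -15*a^9*b +15*a^8*b^2 +30*a^7*b^3 -45*a^6*b^4 -33*a^5*b^5 +45*a^4*b^6 +30*a^3*b^7 -15*a^2*b^8 -15*a*b^9 -3*b^10 := by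
  rw [pA h, pB h]
  linear_combination (-25*a^9*b -25*a^8*b^2 -50*a^7*b^3 -75*a^6*b^4 -125*a^5*b^5 +75*a^4*b^6 -50*a^3*b^7 +25*a^2*b^8 -25*a*b^9) * h

theorem pZ (h : g ^ 2 + g = 1) (a b : R) : ((a + g * b) ^ 5) ^ 2 =
    10*g*a^9*b -45*g*a^8*b^2 +240*g*a^7*b^3 -630*g*a^6*b^4 +1260*g*a^5*b^5 -1680*g*a^4*b^6 +1560*g*a^3*b^7 -945*g*a^2*b^8 +340*g*a*b^9 -55*g*b^10 +a^10 +45*a^8*b^2 -120*a^7*b^3 +420*a^6*b^4 -756*a^5*b^5 +1050*a^4*b^6 -960*a^3*b^7 +585*a^2*b^8 -210*a*b^9 +34*b^10 := by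
  rw [pB h]
  linear_combination (25*a^8*b^2 -100*a^7*b^3 +300*a^6*b^4 -550*a^5*b^5 +750*a^4*b^6 -700*a^3*b^7 +425*a^2*b^8 -150*a*b^9 +25*b^10) * h

theorem pd10 (h : g ^ 2 + g = 1) : (g - 2) ^ 10 = -171875*g +106250 := by
  linear_combination (g^8 -21*g^7 +202*g^6 -1183*g^5 +4745*g^4 -13992*g^3 +32177*g^2 -61529*g +105226) * h

theorem pd15 (h : g ^ 2 + g = 1) : (g - 2) ^ 15 = 106562500*g -65859375 := by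
  linear_combination (g^13 -31*g^12 +452*g^11 -4123*g^10 +26415*g^9 -126634*g^8 +473369*g^7 -1423683*g^6 +3544412*g^5 -7530655*g^4 +14150139*g^3 -24476314*g^2 +40490133*g -65826607) * h

theorem C4_N (h : g ^ 2 + g = 1) (a b : R) : C4 (b - g * a) (a + g * b) = (g - 2) ^ 10 * C4 a b := by
  have e : C4 (b - g * a) (a + g * b) = (((b - g * a) ^ 5) ^ 2) ^ 2 + 228 * ((((b - g * a) ^ 5) ^ 2) *
      ((b - g * a) ^ 5 * (a + g * b) ^ 5)) + 494 * ((((b - g * a) ^ 5) ^ 2) * (((a + g * b) ^ 5) ^ 2))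
      - 228 * (((b - g * a) ^ 5 * (a + g * b) ^ 5) * (((a + g * b) ^ 5) ^ 2)) + (((a + g * b) ^ 5) ^ 2) ^ 2 := by
    unfold C4; ring
  rw [e, pX h, pY h, pZ h, pd10 h]
  unfold C4
  linear_combination (65725*a^20 -148800*a^19*b -892800*a^18*b^2 -3273600*a^17*b^3 -8630400*a^16*b^4 +849300*a^15*b^5 -26932800*a^14*b^6 -30652800*a^13*b^7 -37497600*a^12*b^8 -16814400*a^11*b^9 +1964150*a^10*b^10 +16814400*a^9*b^11 -37497600*a^8*b^12 +30652800*a^7*b^13 -26932800*a^6*b^14 -849300*a^5*b^15 -8630400*a^4*b^16 +3273600*a^3*b^17 -892800*a^2*b^18 +148800*a*b^19 +65725*b^20) * h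

theorem pX2 (h : g ^ 2 + g = 1) (a b : R) : (((b - g * a) ^ 5) ^ 2) ^ 2 =
    -6765*g*a^20 -83620*g*a^19*b -490960*g*a^18*b^2 -1820580*g*a^17*b^3 -4782015*g*a^16*b^4 -9457440*g*a^15*b^5 -14612520*g*a^14*b^6 -18062160*g*a^13*b^7 -18139680*g*a^12*b^8 -14948440*g*a^11*b^9 -10161580*g*a^10*b^10 -5710640*g*a^9*b^11 -2645370*g*a^8*b^12 -1007760*g*a^7*b^13 -310080*g*a^6*b^14 -77520*g*a^5*b^15 -14535*g*a^4*b^16 -2280*g*a^3*b^17 -190*g*a^2*b^18 -20*g*a*b^19 +4181*a^20 +51680*a^19*b +303430*a^18*b^2 +1125180*a^17*b^3 +2955450*a^16*b^4 +5845008*a^15*b^5 +9031080*a^14*b^6 +11162880*a^13*b^7 +11211330*a^12*b^8 +9237800*a^11*b^9 +6281704*a^10*b^10 +3527160*a^9*b^11 +1637610*a^8*b^12 +620160*a^7*b^13 +193800*a^6*b^14 +46512*a^5*b^15 +9690*a^4*b^16 +1140*a^3*b^17 +190*a^2*b^18 +b^20 := by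
  rw [pX h]
  linear_combination (3025*a^20 +37400*a^19*b +219550*a^18*b^2 +814200*a^17*b^3 +2138625*a^16*b^4 +4229400*a^15*b^5 +6534900*a^14*b^6 +8077800*a^13*b^7 +8112450*a^12*b^8 +6684500*a^11*b^9 +4545050*a^10*b^10 +2553300*a^9*b^11 +1184100*a^8*b^12 +449400*a^7*b^13 +139500*a^6*b^14 +34200*a^5*b^15 +6825*a^4*b^16 +900*a^3*b^17 +100*a^2*b^18) * h

theorem pZ2 (h : g ^ 2 + g = 1) (a b : R) : (((a + g * b) ^ 5) ^ 2) ^ 2 =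
    20*g*a^19*b -190*g*a^18*b^2 +2280*g*a^17*b^3 -14535*g*a^16*b^4 +77520*g*a^15*b^5 -310080*g*a^14*b^6 +1007760*g*a^13*b^7 -2645370*g*a^12*b^8 +5710640*g*a^11*b^9 -10161580*g*a^10*b^10 +14948440*g*a^9*b^11 -18139680*g*a^8*b^12 +18062160*g*a^7*b^13 -14612520*g*a^6*b^14 +9457440*g*a^5*b^15 -4782015*g*a^4*b^16 +1820580*g*a^3*b^17 -490960*g*a^2*b^18 +83620*g*a*b^19 -6765*g*b^20 +a^20 +190*a^18*b^2 -1140*a^17*b^3 +9690*a^16*b^4 -46512*a^15*b^5 +193800*a^14*b^6 -620160*a^13*b^7 +1637610*a^12*b^8 -3527160*a^11*b^9 +6281704*a^10*b^10 -9237800*a^9*b^11 +11211330*a^8*b^12 -11162880*a^7*b^13 +9031080*a^6*b^14 -5845008*a^5*b^15 +2955450*a^4*b^16 -1125180*a^3*b^17 +303430*a^2*b^18 -51680*a*b^19 +4181*b^20 := by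
  rw [pZ h]
  linear_combination (100*a^18*b^2 -900*a^17*b^3 +6825*a^16*b^4 -34200*a^15*b^5 +139500*a^14*b^6 -449400*a^13*b^7 +1184100*a^12*b^8 -2553300*a^11*b^9 +4545050*a^10*b^10 -6684500*a^9*b^11 +8112450*a^8*b^12 -8077800*a^7*b^13 +6534900*a^6*b^14 -4229400*a^5*b^15 +2138625*a^4*b^16 -814200*a^3*b^17 +219550*a^2*b^18 -37400*a*b^19 +3025*b^20) * h

theorem pXZ (h : g ^ 2 + g = 1) (a b : R) : ((b - g * a) ^ 5) ^ 2 * ((a + g * b) ^ 5) ^ 2 =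
    -55*g*a^20 +550*g*a^19*b -1925*g*a^18*b^2 +1650*g*a^17*b^3 +5775*g*a^16*b^4 -12540*g*a^15*b^5 -4950*g*a^14*b^6 +29700*g*a^13*b^7 -2475*g*a^12*b^8 -42350*g*a^11*b^9 +7205*g*a^10*b^10 +42350*g*a^9*b^11 -2475*g*a^8*b^12 -29700*g*a^7*b^13 -4950*g*a^6*b^14 +12540*g*a^5*b^15 +5775*g*a^4*b^16 -1650*g*a^3*b^17 -1925*g*a^2*b^18 -550*g*a*b^19 -55*g*b^20 +34*a^20 -340*a^19*b +1190*a^18*b^2 -1020*a^17*b^3 -3570*a^16*b^4 +7752*a^15*b^5 +3060*a^14*b^6 -18360*a^13*b^7 +1530*a^12*b^8 +26180*a^11*b^9 -4454*a^10*b^10 -26180*a^9*b^11 +1530*a^8*b^12 +18360*a^7*b^13 +3060*a^6*b^14 -7752*a^5*b^15 -3570*a^4*b^16 +1020*a^3*b^17 +1190*a^2*b^18 +340*a*b^19 +34*b^20 := by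
  rw [pX h, pZ h]
  linear_combination (-550*a^19*b -925*a^18*b^2 -7350*a^17*b^3 -20025*a^16*b^4 -28500*a^15*b^5 -52050*a^14*b^6 -75300*a^13*b^7 -74475*a^12*b^8 -14650*a^11*b^9 -77125*a^10*b^10 +14650*a^9*b^11 -74475*a^8*b^12 +75300*a^7*b^13 -52050*a^6*b^14 +28500*a^5*b^15 -20025*a^4*b^16 +7350*a^3*b^17 -925*a^2*b^18 +550*a*b^19) * h

theorem C6_N (h : g ^ 2 + g = 1) (a b : R) : C6 (b - g * a) (a + g * b) = (g - 2) ^ 15 * C6 a b := by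
  have e : C6 (b - g * a) (a + g * b) = -(((b - g * a) ^ 5) ^ 2 * (((b - g * a) ^ 5) ^ 2) ^ 2 +
      ((a + g * b) ^ 5) ^ 2 * (((a + g * b) ^ 5) ^ 2) ^ 2) + 522 * (((b - g * a) ^ 5 * (a + g * b) ^ 5) *
      (((b - g * a) ^ 5) ^ 2) ^ 2 - ((b - g * a) ^ 5 * (a + g * b) ^ 5) * (((a + g * b) ^ 5) ^ 2) ^ 2) +
      10005 * ((((b - g * a) ^ 5) ^ 2 * ((a + g * b) ^ 5) ^ 2) * ((b - g * a) ^ 5) ^ 2 +
      (((b - g * a) ^ 5) ^ 2 * ((a + g * b) ^ 5) ^ 2) * ((a + g * b) ^ 5) ^ 2) := by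
    unfold C6; ring
  rw [e, pX2 h, pZ2 h, pXZ h, pX h, pY h, pZ h, pd15 h]
  unfold C6
  linear_combination (47549700*a^30 +2057450*a^29*b +4008350*a^28*b^2 -9082200*a^27*b^3 -61337850*a^26*b^4 -24780162150*a^25*b^5 -79139250*a^24*b^6 +273786000*a^23*b^7 -227333250*a^22*b^8 +187112750*a^21*b^9 -476516311000*a^20*b^10 -201049500*a^19*b^11 -4172333500*a^18*b^12 +2594697000*a^17*b^13 +3150703500*a^16*b^14 +3150703500*a^14*b^16 -2594697000*a^13*b^17 -4172333500*a^12*b^18 +201049500*a^11*b^19 -476516311000*a^10*b^20 -187112750*a^9*b^21 -227333250*a^8*b^22 -273786000*a^7*b^23 -79139250*a^6*b^24 +24780162150*a^5*b^25 -61337850*a^4*b^26 +9082200*a^3*b^27 +4008350*a^2*b^28 -2057450*a*b^29 +47549700*b^30) * h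

end Fermat.Agent.S52I
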