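import Fermat.Agent.S52I.Gal
import Fermat.Agent.S52I.Twist
import Fermat.Agent.S52I.Ff
import Fermat.Agent.S52F.Tr
import Fermat.Agent.S52F.Irr

/-!
# Irreducibility modulo `3` of suitable members of the family
-/

set_option autoImplicit false
set_option linter.unusedSectionVars false
set_option linter.style.haveILetI false

noncomputable section

namespace Fermat.Agent.S52I

open Matrix Fermat.Agent.Sel Fermat.Agent.GalRep Fermat.Agent.Places Fermat.Agent.TWG Fermat.Agent.ImW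
  Fermat.Agent.S52L WeierstrassCurve

local notation "Ω" => AlgebraicClosure ℚ

local notation "𝒢" => (AlgebraicClosure ℚ) ≃ₐ[ℚ] (AlgebraicClosure ℚ)

section place

variable {ℓ : ℕ} [hℓ : Fact ℓ.Prime] {A : ValuationSubring (AlgebraicClosure ℚ)}

theorem charP_res (hA : A.LiesOverPrime ℓ) : CharP (IsLocalRing.ResidueField A) ℓ := by
  have h0 : ((ℓ : ℕ) : IsLocalRing.ResidueField A) = 0 := by
    have h1 : ((ℓ : A) : Ω) ∈ A.nonunits := by
      have : ((ℓ : A) : Ω) = (ℓ : Ω) := by simp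
      rw [this]; exact hA
    have h2 : (ℓ : A) ∈ IsLocalRing.maximalIdeal A := by
      rw [A.valuation_lt_one_iff]
      exact A.mem_nonunits_iff.1 h1
    rw [← map_natCast (IsLocalRing.residue A) ℓ, IsLocalRing.residue_eq_zero_iff]
    exact h2
  have h1 := (Nat.prime_iff_prime_int.1 hℓ.out)
  exact (CharP.charP_iff_prime_eq_zero hℓ.out).2 h0

theorem res_zero {x : A} (h : A.valuation (x : Ω) < 1) : IsLocalRing.residue A x = 0 := by
  rw [IsLocalRing.residue_eq_zero_iff, A.valuation_lt_one_iff]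
  exact h

theorem no_pole (hA : A.LiesOverPrime ℓ) (hℓ5 : ℓ ≠ 5) {t : Ω} (ht : t ∉ A) {x y : A}
    (hxy : x = 1 ∨ y = 1) (h4 : C4 (t * x) (t * y) ∈ A) (hD : DD (t * x) (t * y) ∈ A) : False := by
  haveI := charP_res hA
  rw [C4_smul] at h4
  rw [DD_smul] at hD
  have ht1 : 1 < A.valuation t := by
    rw [← not_le, A.valuation_le_one_iff]
    exact ht
  have key : ∀ (z : A) (n : ℕ), n ≠ 0 → t ^ n * (z : Ω) ∈ A → IsLocalRing.residue A z = 0 := by
    intro z n hn h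
    apply res_zero
    rw [← A.valuation_le_one_iff, map_mul, map_pow] at h
    by_contra hz
    rw [not_lt] at hz
    have h1 : 1 < A.valuation t ^ n := one_lt_pow₀ ht1 hn
    have h2 : 1 < A.valuation t ^ n * A.valuation (z : Ω) := lt_of_lt_of_le h1 (le_mul_of_one_le_right' hz)
    exact absurd h (not_le.2 h2)
  have e4 : C4 (x : Ω) (y : Ω) = ((C4 x y : A) : Ω) := (map_C4 A.subtype x y).symm
  have eD : DD (x : Ω) (y : Ω) = ((DD x y : A) : Ω) := (map_DD A.subtype x y).symm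
  rw [e4] at h4
  rw [eD] at hD
  have h4' := key _ 20 (by norm_num) h4
  have hD' := key _ 12 (by norm_num) hD
  rw [map_C4] at h4'
  rw [map_DD] at hD'
  have h5 : (5 : IsLocalRing.ResidueField A) ≠ 0 := by
    intro h0
    have : ((5 : ℕ) : IsLocalRing.ResidueField A) = 0 := by exact_mod_cast h0
    rw [CharP.cast_eq_zero_iff _ ℓ] at this
    exact hℓ5 ((Nat.prime_dvd_prime_iff_eq hℓ.out Nat.prime_five).1 this)
  obtain ⟨hx, hy⟩ := eq_zero_of_DD_C4 h5 hD' h4'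
  rcases hxy with rfl | rfl
  · rw [map_one] at hx; exact one_ne_zero hx
  · rw [map_one] at hy; exact one_ne_zero hy

theorem integral (hA : A.LiesOverPrime ℓ) (hℓ5 : ℓ ≠ 5) {a b : Ω} (h4 : C4 a b ∈ A)
    (hD : DD a b ∈ A) : a ∈ A ∧ b ∈ A := by
  by_contra hcon
  have key1 : b ∉ A → a / b ∈ A → False := by
    intro hb h
    have hb0 : b ≠ 0 := fun h0 => hb (h0 ▸ zero_mem A)
    refine no_pole hA hℓ5 (t := b) hb (x := ⟨a / b, h⟩) (y := 1) (Or.inr rfl) ?_ ?_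
    · simpa [mul_div_cancel₀ _ hb0] using h4
    · simpa [mul_div_cancel₀ _ hb0] using hD
  have key2 : a ∉ A → b / a ∈ A → False := by
    intro ha h
    have ha0 : a ≠ 0 := fun h0 => ha (h0 ▸ zero_mem A)
    refine no_pole hA hℓ5 (t := a) ha (x := 1) (y := ⟨b / a, h⟩) (Or.inl rfl) ?_ ?_
    · simpa [mul_div_cancel₀ _ ha0] using h4
    · simpa [mul_div_cancel₀ _ ha0] using hD
  rcases A.mem_or_inv_mem (a / b) with h | h
  · by_cases hb : b ∈ A
    · by_cases hb0 : b = 0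
      · have ha : a ∉ A := fun ha => hcon ⟨ha, hb⟩
        exact key2 ha (by rw [hb0, zero_div]; exact zero_mem A)
      · apply hcon
        refine ⟨?_, hb⟩
        have := mul_mem h hb
        rwa [div_mul_cancel₀ _ hb0] at this
    · exact key1 hb h
  · rw [inv_div] at h
    by_cases ha : a ∈ A
    · by_cases ha0 : a = 0
      · have hb : b ∉ A := fun hb => hcon ⟨ha, hb⟩
        exact key1 hb (by rw [ha0, zero_div]; exact zero_mem A)
      · apply hcon
        refine ⟨ha, ?_⟩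
        have := mul_mem h ha
        rwa [div_mul_cancel₀ _ ha0] at this
    · exact key2 ha h

theorem res_fixed {A : ValuationSubring (AlgebraicClosure ℚ)} {τ : 𝒢} (hτ : A.IsFrobeniusAt τ ℓ)
    {x : Ω} (hx : x ∈ A) (h : τ x = x) :
    (IsLocalRing.residue A ⟨x, hx⟩) ^ ℓ = IsLocalRing.residue A ⟨x, hx⟩ := by
  have h1 := Cheb.sub_pow_mem_nonunits hτ hx
  rw [h] at h1
  have h2 : IsLocalRing.residue A (⟨x, hx⟩ - ⟨x, hx⟩ ^ ℓ) = 0 := by
    apply res_zero
    exact A.mem_nonunits_iff.1 h1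
  rw [map_sub, map_pow, sub_eq_zero] at h2
  exact h2.symm

end place

/-- **Irreducibility modulo `3`.** -/
theorem irr3 {W : WeierstrassCurve ℤ} (hΔ : W.Δ ≠ 0) (hss : W.IsSemistableModel)
    (hred : ¬ W.ModRepIsIrreducible 3) [Fact (Nat.Prime 5)]
    {ρ : 𝒢 →* Matrix (Fin 2) (Fin 2) (ZMod 5)} (h : ResW W 5 ρ) {a b : Ω}
    (h4 : C4 a b = (W.Δ : Ω) ^ 8 * W.c₄) (h6 : C6 a b = (W.Δ : Ω) ^ 12 * W.c₆)
    (hD : DD a b = (W.Δ : Ω) ^ 5)
    (hca : complexConjugation a = a) (hcb : complexConjugation b = b)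
    (hker : ∀ σ : 𝒢, ρ σ = 1 → σ a = a ∧ σ b = b) {B : ℤ} (hB : B ≠ 0) :
    ∃ ℓ : ℕ, ℓ.Prime ∧ ¬ (ℓ : ℤ) ∣ B ∧ ∃ x1 y1 : ℤ, ¬ ((ℓ : ℤ) ∣ x1 ∧ (ℓ : ℤ) ∣ y1) ∧
      ∀ x y : ℤ, (ℓ : ℤ) ∣ x - x1 → (ℓ : ℤ) ∣ y - y1 → ∀ W' : WeierstrassCurve ℤ, W'.Δ ≠ 0 →
        W'.IsSemistableModel → C4 (va a b x y) (vb a b x y) = (W.Δ : Ω) ^ 8 * W'.c₄ →
        C6 (va a b x y) (vb a b x y) = (W.Δ : Ω) ^ 12 * W'.c₆ → W'.ModRepIsIrreducible 3 := by
  set N : ℤ := 30 * W.Δ * B with hN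
  have hN0 : N ≠ 0 := mul_ne_zero (mul_ne_zero (by norm_num) hΔ) hB
  have hSf : {ℓ : ℕ | (ℓ : ℤ) ∣ N}.Finite := by
    refine (Set.finite_Iic N.natAbs).subset fun ℓ hℓ => ?_
    exact Nat.le_of_dvd (Int.natAbs_pos.2 hN0) (Int.natCast_dvd.1 hℓ)
  obtain ⟨ℓ, hℓ, hℓS, A, hA, τ, hτ, hτa, hτb, hℓ3, hℓ5⟩ := exists_prime hss h hca hcb hker _ hSf
  haveI : Fact ℓ.Prime := ⟨hℓ⟩
  have hℓN : ¬ (ℓ : ℤ) ∣ N := hℓS
  have hℓΔ : ¬ (ℓ : ℤ) ∣ W.Δ := fun h' => hℓN ((h'.mul_left 30).mul_right B)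
  have hℓB : ¬ (ℓ : ℤ) ∣ B := fun h' => hℓN (h'.mul_left _)
  have hℓ30 : ¬ (ℓ : ℤ) ∣ 30 := fun h' => hℓN ((h'.mul_right _).mul_right _)
  have hne : ∀ q : ℕ, (q : ℤ) ∣ 30 → ℓ ≠ q := by
    rintro q hq rfl
    exact hℓ30 hq
  have hge : 5 ≤ ℓ := by
    have h2 := hne 2 (by norm_num)
    have h3 := hne 3 (by norm_num)
    have := hℓ.two_le
    rcases Nat.lt_or_ge ℓ 5 with hlt | hge
    · interval_cases ℓ
      · exact absurd rfl h2
      · exact absurd rfl h3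
      · exact absurd hℓ (by norm_num)
    · exact hge
  have hℓ5' : ℓ ≠ 5 := hne 5 (by norm_num)
  have hℓ3' : ℓ ≠ 3 := hne 3 (by norm_num)
  haveI := charP_res hA
  have hint : ∀ n : ℤ, (n : Ω) ∈ A := fun n => intCast_mem A n
  obtain ⟨ha, hb⟩ := integral hA hℓ5' (a := a) (b := b)
    (by rw [h4]; exact mul_mem (pow_mem (hint _) _) (hint _))
    (by rw [hD]; exact pow_mem (hint _) _)
  have hsub : Function.Injective A.subtype := Subtype.val_injective
  set r := IsLocalRing.residue A with hr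
  set a' : A := ⟨a, ha⟩ with ha'
  set b' : A := ⟨b, hb⟩ with hb'
  set φ := ZMod.castHom (dvd_refl ℓ) (IsLocalRing.ResidueField A) with hφ
  have hφi : Function.Injective φ := φ.injective
  obtain ⟨α, hα⟩ := mem_range_of_pow_eq (res_fixed hτ ha hτa)
  obtain ⟨β, hβ⟩ := mem_range_of_pow_eq (res_fixed hτ hb hτb)
  have hφint : ∀ n : ℤ, φ (n : ZMod ℓ) = (n : IsLocalRing.ResidueField A) := fun n => map_intCast φ n
  have hD' : DD α β = (W.Δ : ZMod ℓ) ^ 5 := by
    apply hφi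
    rw [map_DD, hα, hβ]
    change DD (r a') (r b') = _
    rw [← map_DD r]
    have : DD a' b' = ((W.Δ : ℤ) : A) ^ 5 := by
      apply hsub
      rw [map_DD, map_pow, map_intCast]
      exact hD
    rw [this, map_pow, map_intCast, map_pow, map_intCast]
  have h4' : C4 α β = (W.Δ : ZMod ℓ) ^ 8 * (W.c₄ : ZMod ℓ) := by
    apply hφi
    rw [map_C4, hα, hβ]
    change C4 (r a') (r b') = _
    rw [← map_C4 r]
    have : C4 a' b' = ((W.Δ : ℤ) : A) ^ 8 * ((W.c₄ : ℤ) : A) := by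
      apply hsub
      rw [map_C4, map_mul, map_pow, map_intCast, map_intCast]
      exact h4
    rw [this, map_mul, map_pow, map_intCast, map_intCast, map_mul, map_pow, map_intCast, map_intCast]
  have h6' : C6 α β = (W.Δ : ZMod ℓ) ^ 12 * (W.c₆ : ZMod ℓ) := by
    apply hφi
    rw [map_C6, hα, hβ]
    change C6 (r a') (r b') = _
    rw [← map_C6 r]
    have : C6 a' b' = ((W.Δ : ℤ) : A) ^ 12 * ((W.c₆ : ℤ) : A) := by
      apply hsub
      rw [map_C6, map_mul, map_pow, map_intCast, map_intCast]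
      exact h6
    rw [this, map_mul, map_pow, map_intCast, map_intCast, map_mul, map_pow, map_intCast, map_intCast]
  have hΔ0 : (W.Δ : ZMod ℓ) ≠ 0 := fun h0 => hℓΔ ((ZMod.intCast_zmod_eq_zero_iff_dvd _ _).1 h0)
  have hDD0 : DD α β ≠ 0 := by rw [hD']; exact pow_ne_zero _ hΔ0
  have h12 : (12 : ZMod ℓ) ≠ 0 := by
    have e : (12 : ZMod ℓ) = 2 ^ 2 * 3 := by norm_num
    rw [e]
    exact mul_ne_zero (pow_ne_zero _ (S52F.two_ne hge)) (S52F.three_ne hge)
  have hd0 : 12 * DD α β ≠ 0 := mul_ne_zero h12 hDD0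
  obtain ⟨g, hg, hgs⟩ := exists_g (ℓ := ℓ) hℓ5
  set A1 : ZMod ℓ := β - g * α with hA1
  set B1 : ZMod ℓ := α + g * β with hB1
  set X1 : ZMod ℓ := (A1 * Da α β + B1 * Db α β) / (12 * DD α β) with hX1
  set Y1 : ZMod ℓ := (α * B1 - β * A1) / (12 * DD α β) with hY1
  have he := euler α β
  have hva : va α β X1 Y1 = A1 := by
    have : va α β X1 Y1 = A1 * (α * Da α β + β * Db α β) / (12 * DD α β) := by
      rw [va, hX1, hY1]; ring
    rw [this, he, mul_div_assoc, div_self hd0, mul_one]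
  have hvb : vb α β X1 Y1 = B1 := by
    have : vb α β X1 Y1 = B1 * (α * Da α β + β * Db α β) / (12 * DD α β) := by
      rw [vb, hX1, hY1]; ring
    rw [this, he, mul_div_assoc, div_self hd0, mul_one]
  obtain ⟨x1, hx1⟩ := ZMod.intCast_surjective X1
  obtain ⟨y1, hy1⟩ := ZMod.intCast_surjective Y1
  refine ⟨ℓ, hℓ, hℓB, x1, y1, ?_, ?_⟩
  · rintro ⟨h1, h2⟩
    have hX0 : X1 = 0 := by rw [← hx1]; exact (ZMod.intCast_zmod_eq_zero_iff_dvd _ _).2 h1
    have hY0 : Y1 = 0 := by rw [← hy1]; exact (ZMod.intCast_zmod_eq_zero_iff_dvd _ _).2 h2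
    have hA0 : A1 = 0 := by rw [← hva, hX0, hY0]; simp [va]
    have hB0 : B1 = 0 := by rw [← hvb, hX0, hY0]; simp [vb]
    have hg0 : g - 2 ≠ 0 := fun h0 => hgs (h0 ▸ ⟨0, by simp⟩)
    have hα0 : (g - 2) * α = 0 := by
      rw [hA1] at hA0
      rw [hB1] at hB0
      linear_combination g * hA0 - hB0 + α * hg
    have hβ0 : (g - 2) * β = 0 := by
      rw [hA1] at hA0
      rw [hB1] at hB0
      linear_combination -hA0 - g * hB0 + β * hg
    have h3 := (mul_eq_zero.1 hα0).resolve_left hg0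
    have h4 := (mul_eq_zero.1 hβ0).resolve_left hg0
    apply hDD0
    rw [h3, h4]
    simp [DD]
  · intro x y hx hy W' hΔW' hssW' e4 e6
    have hxk : (x : ZMod ℓ) = X1 := by
      rw [← hx1, ← sub_eq_zero, ← Int.cast_sub]
      exact (ZMod.intCast_zmod_eq_zero_iff_dvd _ _).2 hx
    have hyk : (y : ZMod ℓ) = Y1 := by
      rw [← hy1, ← sub_eq_zero, ← Int.cast_sub]
      exact (ZMod.intCast_zmod_eq_zero_iff_dvd _ _).2 hy
    have hva' : r (va a' b' (x : A) (y : A)) = φ A1 := by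
      rw [map_va r, ← hva, map_va φ, hα, hβ, ← hxk, ← hyk, map_intCast, map_intCast, map_intCast,
        map_intCast]
    have hvb' : r (vb a' b' (x : A) (y : A)) = φ B1 := by
      rw [map_vb r, ← hvb, map_vb φ, hα, hβ, ← hxk, ← hyk, map_intCast, map_intCast, map_intCast,
        map_intCast]
    have f4 : C4 A1 B1 = (W.Δ : ZMod ℓ) ^ 8 * (W'.c₄ : ZMod ℓ) := by
      apply hφi
      rw [map_C4, ← hva', ← hvb', ← map_C4 r]
      have : C4 (va a' b' (x : A) (y : A)) (vb a' b' (x : A) (y : A)) =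
          ((W.Δ : ℤ) : A) ^ 8 * ((W'.c₄ : ℤ) : A) := by
        apply hsub
        rw [map_C4, map_va, map_vb, map_mul, map_pow, map_intCast, map_intCast, map_intCast,
          map_intCast]
        exact e4
      rw [this, map_mul, map_pow, map_intCast, map_intCast, map_mul, map_pow, map_intCast,
        map_intCast]
    have f6 : C6 A1 B1 = (W.Δ : ZMod ℓ) ^ 12 * (W'.c₆ : ZMod ℓ) := by
      apply hφi
      rw [map_C6, ← hva', ← hvb', ← map_C6 r]
      have : C6 (va a' b' (x : A) (y : A)) (vb a' b' (x : A) (y : A)) =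
          ((W.Δ : ℤ) : A) ^ 12 * ((W'.c₆ : ℤ) : A) := by
        apply hsub
        rw [map_C6, map_va, map_vb, map_mul, map_pow, map_intCast, map_intCast, map_intCast,
          map_intCast]
        exact e6
      rw [this, map_mul, map_pow, map_intCast, map_intCast, map_mul, map_pow, map_intCast,
        map_intCast]
    rw [hA1, hB1, C4_N hg, h4'] at f4
    rw [hA1, hB1, C6_N hg, h6'] at f6
    have g4 : (W'.c₄ : ZMod ℓ) = ((g - 2) ^ 5) ^ 2 * (W.c₄ : ZMod ℓ) := by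
      apply mul_left_cancel₀ (pow_ne_zero 8 hΔ0)
      rw [← f4]; ring
    have g6 : (W'.c₆ : ZMod ℓ) = ((g - 2) ^ 5) ^ 3 * (W.c₆ : ZMod ℓ) := by
      apply mul_left_cancel₀ (pow_ne_zero 12 hΔ0)
      rw [← f6]; ring
    have hns := nonsq_pow hgs
    have hgood : W.IsGoodPrimeFor ℓ := hℓΔ
    have hd5 : (g - 2) ^ 5 ≠ 0 := fun h0 => hns (h0 ▸ ⟨0, by simp⟩)
    have hgood' := S52F.good_of_inv hge hgood hd5 g4 g6
    have hap := S52F.ap_neg_of_inv hge hgood hns g4 g6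
    by_contra hirr
    have k1 := S52F.ap_of_red hΔ hss hred hℓ hgood hℓ3'
    have k2 := S52F.ap_of_red hΔW' hssW' hirr hℓ hgood' hℓ3'
    rw [hap] at k2
    have k3 : (3 : ℤ) ∣ (ℓ : ℤ) - 1 := by
      rw [← Int.cast_natCast (R := ZMod 3)] at hℓ3
      have : (((ℓ : ℤ) - 1 : ℤ) : ZMod 3) = 0 := by
        push_cast
        rw [sub_eq_zero]
        exact_mod_cast hℓ3
      exact (ZMod.intCast_zmod_eq_zero_iff_dvd _ _).1 this
    omega

end Fermat.Agent.S52I
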